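import Fermat.Statements.S21
import Fermat.Agent.H28.S21Glue
import Fermat.Agent.H31.PeriodInjective
import Fermat.Agent.H63.S21A
import Fermat.Agent.H19.Assembly

set_option autoImplicit false
open ModularCurve

namespace Fermat.Agent.S21

theorem result (N : ℕ) [NeZero N] :
    Function.Injective (ModularCurve.periodHomPair N)
      ∧ LinearMap.range (ModularCurve.periodHomPair N)
          = ModularCurve.Period.parabolicHoms ℂ (CongruenceSubgroup.Gamma0 N) ℂ := by
  exact Fermat.Agent.H28.eichlerShimura_of N
    (Fermat.Agent.H31.injective_periodHomPair N
      (fun f => Fermat.Agent.H63.exists_hasEquivariantPrimitive N f))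
    (Fermat.Agent.H19.dim_formula N)

end Fermat.Agent.S21
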