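-- Statement S13 (row 12): if the mod-p representation of the Frey curve is reducible, it has a
-- Galois-stable cofixed line.  Proof: P-S13 (lead helper72); final assembly helper25.
-- Inputs: S05 library (H4), division polynomials (H72/H74/H70), local analysis at p (H92, H9, H60),
-- local analysis at 2 (H64, H71, H12), global Minkowski lemma (H79), abstract Serre argument (H25).
import Fermat.Statements.S13
import Fermat.Agent.H25.S13.Inputs
import Fermat.Agent.H64.FreyTwo
import Fermat.Agent.H79.GlobalRamified

set_option autoImplicit false
open WeierstrassCurve WeierstrassCurve.Affine WeierstrassCurve.Affine.Point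
open CuspForm ModularFormClass UpperHalfPlane
open FreyPackage

namespace Fermat.Agent.S13

theorem result (P : FreyPackage) (hred : ¬ GaloisRepIsIrreducible (K := AlgebraicClosure ℚ) ℚ P.freyCurve P.p) : HasGaloisStableCofixedLine (K := AlgebraicClosure ℚ) ℚ P.freyCurve P.p := by
  exact Fermat.Agent.H25.s13_of_two P
    (fun A hA _ hσ x => Fermat.Agent.H64.frey_inertia_two_unipotent' P A hA hσ x)
    (fun H hHn L hL hLH hH =>
      Fermat.Agent.H79.exists_prime_forall_exists_inertia_not_mem H hHn L hL hLH hH)
    hred

end Fermat.Agent.S13
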