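import Fermat.Statements.S16
import Fermat.Agent.H20.S16.Final
import Fermat.Agent.H67.S16NoUnit
import Fermat.Agent.H97.S16UB34Final
import Fermat.Agent.H1.S16L2.Final
import Fermat.Agent.H41.EisThree
import Fermat.Agent.H69.S16LevelThree
import Fermat.Agent.H16.S16Conj

set_option autoImplicit false
open ModularCurve CuspForm
open ModularCurve

namespace Fermat.Agent.S16

theorem result
    (p : ℕ) [Fact p.Prime] :
    Nat.card (↥(heckeLatticeAlgebra p ∅) ⧸
        Ideal.map ((latticeRestrictHom p ∅).toRingHom.comp (heckeEvalForms p 2))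
          (eisensteinIdeal p)) =
      eisensteinNumerator p := by
  exact Fermat.Agent.H20.S16.s16_of_noUnit
    Fermat.Agent.H67.noUnitGeFive
    Fermat.Agent.H67.noUnitNine
    Fermat.Agent.H97.noUnitThreeStatement
    Fermat.Agent.H97.noUnitFourStatement
    (Fermat.Agent.H65.noUnitEight_of_modEight
      (Fermat.Agent.H1.S16L2.noUnitModEight
        Fermat.Agent.H41.eisThreeStatement
        (Fermat.Agent.H69.L3.levelThree Fermat.Agent.H41.eisThreeStatement)
        Fermat.Agent.H16.conjStatement))
    p

end Fermat.Agent.S16
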