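import Fermat.Statements.S51
import Fermat.Agent.H50.S51Glue
import Fermat.Agent.H38.A5

set_option autoImplicit false
open WeierstrassCurve WeierstrassCurve.Affine WeierstrassCurve.Affine.Point
open CuspForm ModularFormClass UpperHalfPlane
open WeierstrassCurve

namespace Fermat.Agent.S51

theorem result (W : WeierstrassCurve ℤ) (hΔ : W.Δ ≠ 0) (hW : W.IsSemistableModel) : W.ModRepIsIrreducible 3 ∨ W.ModRepIsIrreducible 5 := by
  exact Fermat.Agent.H50.s51_of_A5
    (fun W' hΔ' h5 => Fermat.Agent.H38.fiveData_of_not_irreducible W' hΔ' h5) W hΔ hW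

end Fermat.Agent.S51
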