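import Fermat.Statements.S53
import Fermat.Agent.H78.Assembly
import Fermat.Agent.H81.ProRep
import Fermat.Agent.H82.Gauge
import Fermat.Agent.H12.Art1
import Fermat.Agent.H66.ArtGen
import Fermat.Agent.H34.Tower
import Fermat.Agent.H25.LimitTower
import Fermat.Agent.H99.UniversalPoint

set_option autoImplicit false
set_option autoImplicit false
open GaloisRep

namespace Fermat.Agent.S53

theorem result
    (𝒪 : Type) [CommRing 𝒪] [IsDomain 𝒪] [IsDiscreteValuationRing 𝒪]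
    [IsAdicComplete (IsLocalRing.maximalIdeal 𝒪) 𝒪] [Finite (IsLocalRing.ResidueField 𝒪)]
    (ρbar : ResidualGaloisRep (IsLocalRing.ResidueField 𝒪))
    (𝒟 : ∀ ⦃A : Type⦄ [CommRing A] [IsLocalRing A] [Algebra 𝒪 A], GaloisRepAdic A → Prop)
    (habs : ρbar.IsAbsolutelyIrreducible)
    (h𝒟 : GaloisRep.IsDeformationCondition 𝒪 𝒟)
    (hbar : 𝒟 (GaloisRepAdic.ofResidualGaloisRep ρbar))
    (hfin : GaloisRep.TangentFinite 𝒪 ρbar 𝒟) :
    Nonempty (GaloisRep.DeformationRingData 𝒪 ρbar 𝒟) := by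
  obtain ⟨G, β, hG⟩ := Fermat.Agent.H82.exists_gauge ρbar habs
  have hP := Fermat.Agent.H81.defPred_isProRepresentable hG 𝒟 h𝒟 hbar hfin
  obtain ⟨T⟩ := Fermat.Agent.H34.nonempty_tower_of
    (fun a b ha hb => Fermat.Agent.H12.admissible_inf hP ha hb)
    (Fermat.Agent.H12.admissible_baseIdeal hP)
    (Fermat.Agent.H66.exists_finset_gen hP)
  obtain ⟨L⟩ := Fermat.Agent.H25.nonempty_limitData hP T
  obtain ⟨U⟩ := Fermat.Agent.H99.LimitData.nonempty_universalPoint hP T L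
  exact Fermat.Agent.H78.deformationRingData_of_universalPoint hG habs 𝒟 h𝒟 U

end Fermat.Agent.S53
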